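import Fermat.Statements.S05
import Fermat.Agent.S05.FreyCase

set_option autoImplicit false
open WeierstrassCurve WeierstrassCurve.Affine WeierstrassCurve.Affine.Point
open CuspForm ModularFormClass UpperHalfPlane
open FreyPackage

namespace Fermat.Agent.S05

/-- A prime dividing two coprime integers does not exist. -/
lemma not_dvd_of_gcd_eq_one {q : ℕ} (hq : q.Prime) {m n : ℤ} (hmn : gcd m n = 1)
    (hm : (q : ℤ) ∣ m) : ¬ (q : ℤ) ∣ n := by
  intro hn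
  have h1 : (q : ℤ) ∣ gcd m n := dvd_gcd hm hn
  rw [hmn] at h1
  have h2 : q ∣ 1 := by exact_mod_cast h1
  exact hq.one_lt.ne' (Nat.dvd_one.mp h2)

theorem result (P : FreyPackage) {q : ℕ} (hq : q.Prime) (hq2 : q ≠ 2) (hqp : q ≠ P.p) : P.GaloisRepUnramifiedAt q := by
  intro A hA σ hσ
  have hqi : Prime (q : ℤ) := Nat.prime_iff_prime_int.mp hq
  have hp0 : P.p ≠ 0 := P.hp0
  have hFLT := P.hFLT
  by_cases hc : (q : ℤ) ∣ P.c
  · -- `q ∣ c`: multiplicative reduction, `ρ = a ^ p`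
    have hna : ¬ (q : ℤ) ∣ P.a := by
      have := P.hgcdac
      exact not_dvd_of_gcd_eq_one hq (by rw [gcd_comm]; exact this) hc
    have hnb : ¬ (q : ℤ) ∣ P.b := by
      have := P.hgcdbc
      exact not_dvd_of_gcd_eq_one hq (by rw [gcd_comm]; exact this) hc
    refine frey_case P hq hq2 hqp A hA σ hσ (P.a ^ P.p) (by ring) _ _ rfl rfl ?_ ?_
    · have e : (P.b ^ P.p - P.a ^ P.p + 3 * P.a ^ P.p) ^ 2 -
          4 * (3 * (P.a ^ P.p) ^ 2 + 2 * (P.b ^ P.p - P.a ^ P.p) * P.a ^ P.p -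
            P.a ^ P.p * P.b ^ P.p) = P.b ^ (P.p * 2) := by ring
      rw [e]
      exact fun h => hnb (hqi.dvd_of_dvd_pow h)
    · intro _
      have e1 : P.b ^ P.p - P.a ^ P.p + 3 * P.a ^ P.p = P.c ^ P.p + P.a ^ P.p := by
        rw [← hFLT]; ring
      have e2 : 3 * (P.a ^ P.p) ^ 2 + 2 * (P.b ^ P.p - P.a ^ P.p) * P.a ^ P.p -
          P.a ^ P.p * P.b ^ P.p = (P.a * P.c) ^ P.p := by
        rw [mul_pow, ← hFLT]; ring
      refine ⟨?_, ?_, P.a * P.c, mul_ne_zero P.ha0 P.hc0, Or.inl e2⟩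
      · rw [e1]
        intro h
        have h1 : (q : ℤ) ∣ P.c ^ P.p := dvd_pow hc hp0
        have h2 : (q : ℤ) ∣ P.a ^ P.p := (dvd_add_right h1).mp h
        exact hna (hqi.dvd_of_dvd_pow h2)
      · rw [e2]
        exact pow_ne_zero _ (mul_ne_zero P.ha0 P.hc0)
  · -- `q ∤ c`: good reduction or `q ∣ a b`, `ρ = 0`
    refine frey_case P hq hq2 hqp A hA σ hσ 0 (by ring) _ _ rfl rfl ?_ ?_
    · have e : (P.b ^ P.p - P.a ^ P.p + 3 * 0) ^ 2 -
          4 * (3 * (0 : ℤ) ^ 2 + 2 * (P.b ^ P.p - P.a ^ P.p) * 0 - P.a ^ P.p * P.b ^ P.p) =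
          P.c ^ (P.p * 2) := by
        rw [pow_mul, ← hFLT]; ring
      rw [e]
      exact fun h => hc (hqi.dvd_of_dvd_pow h)
    · intro hqb
      have e2 : 3 * (0 : ℤ) ^ 2 + 2 * (P.b ^ P.p - P.a ^ P.p) * 0 - P.a ^ P.p * P.b ^ P.p =
          -(P.a * P.b) ^ P.p := by
        rw [mul_pow]; ring
      have e1 : P.b ^ P.p - P.a ^ P.p + 3 * 0 = P.b ^ P.p - P.a ^ P.p := by ring
      rw [e2] at hqb
      have hab : (q : ℤ) ∣ P.a * P.b := hqi.dvd_of_dvd_pow ((dvd_neg).mp hqb)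
      refine ⟨?_, ?_, P.a * P.b, mul_ne_zero P.ha0 P.hb0, Or.inr e2⟩
      · rw [e1]
        intro h
        rcases hqi.dvd_or_dvd hab with ha | hb
        · have hnb : ¬ (q : ℤ) ∣ P.b := not_dvd_of_gcd_eq_one hq P.hgcdab ha
          have h1 : (q : ℤ) ∣ P.a ^ P.p := dvd_pow ha hp0
          have h2 : (q : ℤ) ∣ P.b ^ P.p := (dvd_sub_left h1).mp h
          exact hnb (hqi.dvd_of_dvd_pow h2)
        · have hna : ¬ (q : ℤ) ∣ P.a :=
            not_dvd_of_gcd_eq_one hq (by rw [gcd_comm]; exact P.hgcdab) hb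
          have h1 : (q : ℤ) ∣ P.b ^ P.p := dvd_pow hb hp0
          have h2 : (q : ℤ) ∣ P.a ^ P.p := (dvd_sub_right h1).mp h
          exact hna (hqi.dvd_of_dvd_pow h2)
      · rw [e2]
        exact neg_ne_zero.mpr (pow_ne_zero _ (mul_ne_zero P.ha0 P.hb0))

end Fermat.Agent.S05
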