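-- Statement S10 (row 9): the Frey curve has no Galois-stable cofixed line when p ∈ {5, 7, 13}.
-- Proof: a Frey package with such p contradicts Fermat's Last Theorem for the regular primes
-- 5, 7, 13 (Kummer), proved in Fermat/Agent/S10/*.
import Fermat.Statements.S10
import Fermat.Agent.S10.FLT5and7
import Fermat.Agent.S10.FLT13

set_option autoImplicit false
open WeierstrassCurve WeierstrassCurve.Affine WeierstrassCurve.Affine.Point
open CuspForm ModularFormClass UpperHalfPlane
open FreyPackage

namespace Fermat.Agent.S10

theorem result (P : FreyPackage) (hp : P.p = 5 ∨ P.p = 7 ∨ P.p = 13) : ¬ HasGaloisStableCofixedLine (K := AlgebraicClosure ℚ) ℚ P.freyCurve P.p := by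
  -- A Frey package with `p ∈ {5, 7, 13}` would give a counterexample to Fermat's Last Theorem
  -- for a regular prime exponent, which is impossible (Kummer).
  exfalso
  rcases hp with hp | hp | hp
  · exact Fermat.Agent.S10.frey_false_of_flt P (by rw [hp]; exact Fermat.Agent.S10.flt_five)
  · exact Fermat.Agent.S10.frey_false_of_flt P (by rw [hp]; exact Fermat.Agent.S10.flt_seven)
  · exact Fermat.Agent.S10.frey_false_of_flt P (by rw [hp]; exact Fermat.Agent.S10.flt_thirteen)

end Fermat.Agent.S10
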