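-- Statement S11 (row 10): the Frey curve has no Galois-stable cofixed line when p = 11.
-- Proof: a Frey package with p = 11 contradicts Fermat's Last Theorem for the regular prime 11
-- (Kummer), proved in Fermat/Agent/S10/*.
import Fermat.Statements.S11
import Fermat.Agent.S10.FLT11

set_option autoImplicit false
open WeierstrassCurve WeierstrassCurve.Affine WeierstrassCurve.Affine.Point
open CuspForm ModularFormClass UpperHalfPlane
open FreyPackage

namespace Fermat.Agent.S11

theorem result (P : FreyPackage) (hp : P.p = 11) : ¬ HasGaloisStableCofixedLine (K := AlgebraicClosure ℚ) ℚ P.freyCurve P.p := by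
  -- A Frey package with `p = 11` would give a counterexample to Fermat's Last Theorem for the
  -- regular prime `11`, which is impossible (Kummer).
  exfalso
  exact Fermat.Agent.S10.frey_false_of_flt P (by rw [hp]; exact Fermat.Agent.S10.flt_eleven)

end Fermat.Agent.S11
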