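import Fermat.Statements.S13
import Fermat.Agent.S13.AsmFinal
import Fermat.Agent.S13.TorMain
import Fermat.Agent.S13.InertiaFixed
import Fermat.Agent.S13.LocalTwo
import Fermat.Agent.S13.NoRatTors

set_option autoImplicit false
open WeierstrassCurve WeierstrassCurve.Affine WeierstrassCurve.Affine.Point
open CuspForm ModularFormClass UpperHalfPlane
open FreyPackage

namespace Fermat.Agent.S13

theorem result (P : FreyPackage) (hred : ¬ GaloisRepIsIrreducible (K := AlgebraicClosure ℚ) ℚ P.freyCurve P.p) : HasGaloisStableCofixedLine (K := AlgebraicClosure ℚ) ℚ P.freyCurve P.p := by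
  have hc := tor_card_le (P.freyCurve⁄(AlgebraicClosure ℚ)) P.hp_odd
  obtain ⟨S₀, hS₀⟩ := frey_local_two P
  exact asm_final P (fun x y h => tor_nsmul_eq_zero_iff_odd _ h P.hp_odd)
    (tor_nontrivial _ (Lp.frey_Δ_ne_zero P) P.hp_odd (by have := P.hp5; omega)) hc.1 hc.2
    (fun M _ _ A q hq hA x _ hx0 hfix => relInertia_fixed_valuation A M hq hA hx0 hfix)
    ⟨S₀, fun M A hS hM hA hNP hcard => hS₀ M A hS hM hA hNP hc.1 hcard⟩
    (frey_no_rational_torsion P) hred

end Fermat.Agent.S13
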