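import Fermat.Statements.S14
import Fermat.Agent.S14.Bridge1
import Fermat.Agent.S14.Bridge2
import Fermat.Agent.S14.Endgame
import Fermat.Agent.S14.Assembly

set_option autoImplicit false
open ExtCitation

namespace Fermat.Agent.S14

theorem result {p : ℕ} [Fact p.Prime] (h3 : 3 ≤ p) :
    ExtCitation.ExtVanishingCts p :=
  extVanishing_of
    (fun V _ _ _ _ C hadm hns => kummer_data h3 V C hadm hns)
    (fun V _ _ _ _ C hadm ζ A hζ hA0 hAp h₀ h₀ζ h₀A hker hcyc _ v =>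
      bridge_hc V C h3 hadm ζ A hζ hA0 hAp h₀ h₀ζ h₀A hker hcyc v)
    (fun V _ _ _ _ C hadm ζ A hζ hA0 hAp h₀ h₀ζ h₀A hker hcyc η γ hη hγ hηint hηinv hA =>
      bridge_hd V C h3 hadm ζ A hζ hA0 hAp h₀ h₀ζ h₀A hker hcyc η γ hη hγ hηint hηinv hA)
    (fun _ _ _ _ _ hζ α => no_kummerDatum h3 hζ α)

end Fermat.Agent.S14
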