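import Fermat.Statements.S16
import Fermat.Agent.S16.AlgMain
import Fermat.Agent.S16.LowerBound
import Fermat.Agent.S16.UpperBoundFinal
import Fermat.Agent.S16.U8
import Fermat.Agent.S16.Small

/-!
# S16: Mazur's Eisenstein quotient `T / I ≅ ℤ / n`, `n = num((p - 1) / 12)`

Assembly of the pieces in `Fermat/Agent/S16/`:

* `alg_main_sum` (algebra): the statement follows from a lower bound (a cusp form with integer
  coefficients congruent to `σ'(k)` modulo `n`) and an upper bound (every modulus `m` admitting
  such a cusp form divides `n`);
* `lb_exists` (lower bound, from the theta series of a quaternary form of level `p`);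
* `ub_main_of_u8` + `u8_not_ubCong` (upper bound, from the lemmas U1, U8, U9, Ul);
* `s16_small` (the primes `2` and `3`).
-/

set_option autoImplicit false
open ModularCurve CuspForm
open ModularCurve

namespace Fermat.Agent.S16

theorem result
    (p : ℕ) [Fact p.Prime] :
    Nat.card (↥(heckeLatticeAlgebra p ∅) ⧸
        Ideal.map ((latticeRestrictHom p ∅).toRingHom.comp (heckeEvalForms p 2))
          (eisensteinIdeal p)) =
      eisensteinNumerator p := by
  have hpp : p.Prime := Fact.out
  by_cases h5 : 5 ≤ p
  · exact alg_main_sum p (lb_exists p)
      (fun m f a ha hc => ub_main_of_u8 p h5 (fun h8 => u8_not_ubCong p h8) m f a ha hc)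
  · have h23 : p = 2 ∨ p = 3 := by
      have h2 := hpp.two_le
      have : p ≠ 4 := fun h => by rw [h] at hpp; exact absurd hpp (by decide)
      omega
    exact s16_small p h23

end Fermat.Agent.S16
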