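import Fermat.Statements.S24
import Fermat.Agent.S24.PlaceBasic
import Fermat.Agent.S24.FFSetup
import Fermat.Agent.S24.Fiber
import Fermat.Agent.S24.Differential
import Fermat.Agent.S24.Genus
import Fermat.Agent.S24.Count
import Fermat.Agent.S24.ModField
import Fermat.Agent.S24.ModEmb
import Fermat.Agent.S24.AnPlace
import Fermat.Agent.S24.Numerics
import Fermat.Agent.S24.Transfer
import Fermat.Agent.S24.JTrans

/-!
# S24: the genus of the function field of `X₀(N)` over `ℚ̄` is the classical genus formula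

Riemann–Hurwitz for `j : X₀(N) → ℙ¹`, with the fibres over `0`, `1728`, `∞` counted through the
Galois closure `L = Frac ℚ̄[J(dγτ)]` and its `SL₂(ℤ)`-action.
-/

set_option synthInstance.maxHeartbeats 200000

set_option autoImplicit false
open ModularCurve

noncomputable section

namespace Fermat.Agent.S24

open AlgebraicCurve KaehlerDifferential CongruenceSubgroup ModularGroup
open scoped MatrixGroups IntermediateField

attribute [local instance] algKC

section generic

variable {K F : Type*} [Field K] [Field F] [Algebra K F]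

theorem asm_adjoin_sub_const (x : F) (c : K) : K⟮x - algebraMap K F c⟯ = K⟮x⟯ := by
  apply le_antisymm
  · rw [IntermediateField.adjoin_simple_le_iff]
    exact sub_mem (IntermediateField.mem_adjoin_simple_self K x) (IntermediateField.algebraMap_mem _ c)
  · rw [IntermediateField.adjoin_simple_le_iff]
    have h := add_mem (IntermediateField.mem_adjoin_simple_self K (x - algebraMap K F c))
      (IntermediateField.algebraMap_mem K⟮x - algebraMap K F c⟯ c)
    simpa using h

theorem asm_adjoin_inv (x : F) : K⟮x⁻¹⟯ = K⟮x⟯ := by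
  apply le_antisymm
  · rw [IntermediateField.adjoin_simple_le_iff]
    exact inv_mem (IntermediateField.mem_adjoin_simple_self K x)
  · rw [IntermediateField.adjoin_simple_le_iff]
    have h := inv_mem (IntermediateField.mem_adjoin_simple_self K x⁻¹)
    simpa using h

theorem asm_transcendental_sub_const {x : F} (hx : Transcendental K x) (c : K) :
    Transcendental K (x - algebraMap K F c) := by
  intro h
  apply hx
  have h2 : x = (x - algebraMap K F c) + algebraMap K F c := by ring
  rw [h2]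
  exact h.add (isAlgebraic_algebraMap c)

theorem asm_transcendental_inv {x : F} (hx : Transcendental K x) : Transcendental K x⁻¹ := by
  intro h
  apply hx
  have := h.inv
  rwa [inv_inv] at this

theorem asm_fd_congr {E E' : IntermediateField K F} (h : E = E') [FiniteDimensional E F] :
    FiniteDimensional E' F := by
  subst h
  infer_instance

theorem asm_finrank_congr {E E' : IntermediateField K F} (h : E = E') :
    Module.finrank E F = Module.finrank E' F := by
  subst h
  rfl

end generic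

section orbits

theorem asm_cycOrbits_one {G : Type*} [Group G] (X : Type*) [MulAction G X] :
    cycOrbits X (1 : G) = Nat.card X := by
  unfold cycOrbits
  refine (Nat.card_congr (Equiv.ofBijective
    (Quotient.mk'' : X → MulAction.orbitRel.Quotient (Subgroup.zpowers (1 : G)) X) ⟨?_, ?_⟩)).symm
  · intro x y h
    have h' := Quotient.exact' h
    change x ∈ MulAction.orbit _ y at h'
    obtain ⟨⟨g, hg⟩, rfl⟩ := h'
    rw [Subgroup.zpowers_one_eq_bot, Subgroup.mem_bot] at hg
    subst hg
    exact one_smul _ y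
  · exact Quotient.mk''_surjective

theorem asm_card_orbits_top {G : Type*} [Group G] (D : Subgroup G) :
    Nat.card (MulAction.orbitRel.Quotient D (G ⧸ (⊤ : Subgroup G))) = 1 := by
  have : Subsingleton (G ⧸ (⊤ : Subgroup G)) := QuotientGroup.subsingleton_quotient_top
  have : Nonempty (MulAction.orbitRel.Quotient D (G ⧸ (⊤ : Subgroup G))) :=
    ⟨Quotient.mk'' (QuotientGroup.mk 1)⟩
  have : Subsingleton (MulAction.orbitRel.Quotient D (G ⧸ (⊤ : Subgroup G))) :=
    ⟨fun a b => by
      induction a using Quotient.inductionOn'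
      induction b using Quotient.inductionOn'
      exact congrArg _ (Subsingleton.elim _ _)⟩
  exact Nat.card_unique

theorem asm_card_orbits_of_eq_top {G : Type*} [Group G] (H D : Subgroup G) (hH : H = ⊤) :
    Nat.card (MulAction.orbitRel.Quotient D (G ⧸ H)) = 1 := by
  subst hH
  exact asm_card_orbits_top D

theorem asm_cycOrbits_of_eq_top {G : Type*} [Group G] (H : Subgroup G) (hH : H = ⊤) (g : G) :
    cycOrbits (G ⧸ H) g = 1 :=
  asm_card_orbits_of_eq_top H (Subgroup.zpowers g) hH

theorem asm_cycOrbits_congr_subgroup {G : Type*} [Group G] {H H' : Subgroup G} (h : H = H')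
    (g : G) : cycOrbits (G ⧸ H) g = cycOrbits (G ⧸ H') g := by
  subst h
  rfl

end orbits

section orders

variable {G : Type*} [Group G] [Finite G]

theorem asm_eq_one_of_dvd {N : ℕ} (h : (N : ℤ) ∣ 1) : N = 1 := by
  have h2 : (N : ℤ) ∣ ((1 : ℕ) : ℤ) := by simpa using h
  exact Nat.dvd_one.mp (Int.natCast_dvd_natCast.mp h2)

theorem asm_order_S (N : ℕ) (hN : N ≠ 1) (ρ : SL(2, ℤ) →* G)
    (hker : ∀ γ, ρ γ = 1 → γ ∈ Gamma0 N) : 2 ≤ orderOf (ρ S) := by
  have hpos : 0 < orderOf (ρ S) := orderOf_pos _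
  have h1 : orderOf (ρ S) ≠ 1 := by
    intro h
    rw [orderOf_eq_one_iff] at h
    have h3 := (p1_mem_Gamma0_iff N _).mp (hker _ h)
    have h4 : (S : SL(2, ℤ)) 1 0 = 1 := by
      simp [ModularGroup.coe_S]
    rw [h4] at h3
    exact hN (asm_eq_one_of_dvd h3)
  omega

theorem asm_order_ST (N : ℕ) (hN : N ≠ 1) (ρ : SL(2, ℤ) →* G)
    (hker : ∀ γ, ρ γ = 1 → γ ∈ Gamma0 N) : 3 ≤ orderOf (ρ (S * T)) := by
  have hpos : 0 < orderOf (ρ (S * T)) := orderOf_pos _
  have h1 : orderOf (ρ (S * T)) ≠ 1 := by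
    intro h
    rw [orderOf_eq_one_iff] at h
    have h3 := (p1_mem_Gamma0_iff N _).mp (hker _ h)
    have h4 : (S * T : SL(2, ℤ)) 1 0 = 1 := by
      simp [ModularGroup.coe_S, ModularGroup.coe_T, Matrix.mul_apply, Fin.sum_univ_two]
    rw [h4] at h3
    exact hN (asm_eq_one_of_dvd h3)
  have h2 : orderOf (ρ (S * T)) ≠ 2 := by
    intro h
    have h' : ρ ((S * T) ^ 2) = 1 := by
      have h5 := pow_orderOf_eq_one (ρ (S * T))
      rw [h] at h5
      rw [map_pow]
      exact h5
    have h3 := (p1_mem_Gamma0_iff N _).mp (hker _ h')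
    have h4 : ((S * T) ^ 2 : SL(2, ℤ)) 1 0 = 1 := by
      simp [pow_two, ModularGroup.coe_S, ModularGroup.coe_T, Matrix.mul_apply, Fin.sum_univ_two]
    rw [h4] at h3
    exact hN (asm_eq_one_of_dvd h3)
  omega

theorem asm_conj_T_entry (n : ℤ) : (S * T ^ n * S⁻¹ : SL(2, ℤ)) 1 0 = -n := by
  simp [Matrix.SpecialLinearGroup.coe_inv, ModularGroup.coe_S, ModularGroup.coe_T_zpow,
    Matrix.adjugate_fin_two_of, Matrix.mul_apply, Fin.sum_univ_two]

theorem asm_order_T (N : ℕ) (ρ : SL(2, ℤ) →* G)
    (hker : ∀ γ, ρ γ = 1 → γ ∈ Gamma0 N) : N ≤ orderOf (ρ T) := by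
  have hpos : 0 < orderOf (ρ T) := orderOf_pos _
  have h1 : ρ (T ^ (orderOf (ρ T) : ℤ)) = 1 := by
    rw [zpow_natCast, map_pow]
    exact pow_orderOf_eq_one _
  have h2 : ρ (S * T ^ (orderOf (ρ T) : ℤ) * S⁻¹) = 1 := by
    rw [map_mul, map_mul, h1, mul_one, ← map_mul, mul_inv_cancel, map_one]
  have h3 := (p1_mem_Gamma0_iff N _).mp (hker _ h2)
  rw [asm_conj_T_entry, dvd_neg] at h3
  exact Nat.le_of_dvd hpos (Int.natCast_dvd_natCast.mp h3)

end orders


section modular

variable (N : ℕ) [NeZero N]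

/-- The function field. -/
abbrev FF : Type := ↥(modularFunctionFieldBar N)

/-- `F → L`. -/
@[reducible] def algFL : Algebra (FF N) (ModL N) := (embF N).toRingHom.toAlgebra

attribute [local instance] algFL

instance (priority := 10000) asm_smul_FL : SMul (FF N) (ModL N) := (algFL N).toSMul

instance (priority := 10000) asm_module_FL : Module (FF N) (ModL N) := (algFL N).toModule

theorem asm_algebraMap_FL (f : FF N) : algebraMap (FF N) (ModL N) f = embF N f := rfl

instance asm_tower : IsScalarTower Kbar (FF N) (ModL N) :=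
  IsScalarTower.of_algebraMap_eq fun c => by
    rw [asm_algebraMap_FL]
    exact ((embF N).commutes c).symm

/-- The finite Galois group. -/
abbrev GG : Subgroup (ModL N ≃ₐ[Kbar] ModL N) := (rhoL N).range

instance asm_finite_GG : Finite (GG N) := finite_range_rhoL N

instance (priority := 10000) asm_GG_action : MulSemiringAction (GG N) (ModL N) :=
  Subgroup.mulSemiringAction (GG N)

instance (priority := 10000) asm_GG_smul_inst : SMul (GG N) (ModL N) :=
  (asm_GG_action N).toSMul

instance (priority := 10000) asm_GG_mulAction : MulAction (GG N) (ModL N) :=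
  (asm_GG_action N).toMulAction

/-- `SL₂(ℤ) → G`. -/
def rho : SL(2, ℤ) →* GG N := (rhoL N).rangeRestrict

theorem rho_surjective : Function.Surjective (rho N) := (rhoL N).rangeRestrict_surjective

theorem asm_GG_smul (g : GG N) (f : ModL N) : g • f = (g : ModL N ≃ₐ[Kbar] ModL N) f := rfl

theorem asm_rho_smul (γ : SL(2, ℤ)) (f : ModL N) : rho N γ • f = γ • f := rfl

theorem asm_toAlgEquiv (g : GG N) :
    MulSemiringAction.toAlgEquiv Kbar (ModL N) g = (g : ModL N ≃ₐ[Kbar] ModL N) := by
  ext f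
  rfl

example : FaithfulSMul (GG N) (ModL N) := inferInstance
example : SMulCommClass (GG N) Kbar (ModL N) := inferInstance
example : MulAction (GG N) (Place Kbar (ModL N)) := inferInstance

/-- The subgroup fixing `F`. -/
def HH : Subgroup (GG N) :=
  fixingSubgroup (GG N) (Set.range (algebraMap (FF N) (ModL N)))

theorem asm_mem_HH (g : GG N) :
    g ∈ HH N ↔ ∀ f : FF N, g • algebraMap (FF N) (ModL N) f = algebraMap (FF N) (ModL N) f := by
  unfold HH
  rw [mem_fixingSubgroup_iff]
  constructor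
  · intro h f
    exact h _ ⟨f, rfl⟩
  · rintro h _ ⟨f, rfl⟩
    exact h f

theorem asm_comap_HH : (HH N).comap (rho N) = Gamma0 N := by
  ext γ
  rw [Subgroup.mem_comap, asm_mem_HH, ← embF_stab N γ]
  rfl


theorem asm_ker (γ : SL(2, ℤ)) (h : rho N γ = 1) : γ ∈ Gamma0 N := by
  rw [← asm_comap_HH N, Subgroup.mem_comap, h]
  exact one_mem _

omit [NeZero N] in
theorem asm_smul_Jelt_one (γ : SL(2, ℤ)) :
    γ • Jelt N 1 (one_dvd N) = Jelt N 1 (one_dvd N) := by
  apply Subtype.ext
  funext τ
  show Fermat.Agent.S28.Jfun (Fermat.Agent.S28.scaleH 1 ((1 : SL(2, ℤ)) • γ⁻¹ • τ))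
    = Fermat.Agent.S28.Jfun (Fermat.Agent.S28.scaleH 1 ((1 : SL(2, ℤ)) • τ))
  rw [one_smul, one_smul]
  exact Fermat.Agent.S28.Jfun_scaleH_smul 1 1 (one_dvd 1) γ⁻¹
    (by rw [p1_mem_Gamma0_iff, Nat.cast_one]; exact one_dvd _) τ

theorem asm_smul_jL (γ : SL(2, ℤ)) : γ • jL N = jL N := by
  unfold jL
  rw [smul_algebraMap_modL, asm_smul_Jelt_one]

theorem asm_fixed_of_mem (f : ModL N) (hf : f ∈ Kbar⟮jL N⟯) (g : GG N) : g • f = f := by
  have hle : Kbar⟮jL N⟯ ≤ IntermediateField.fixedField (GG N) := by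
    rw [IntermediateField.adjoin_simple_le_iff, IntermediateField.mem_fixedField_iff]
    rintro _ ⟨γ, rfl⟩
    exact asm_smul_jL N γ
  have h2 := hle hf
  rw [IntermediateField.mem_fixedField_iff] at h2
  exact h2 g.1 g.2

theorem asm_HH_eq_top (h1 : N = 1) : HH N = ⊤ := by
  rw [eq_top_iff]
  intro g _
  obtain ⟨γ, rfl⟩ := rho_surjective N g
  have h2 : γ ∈ (HH N).comap (rho N) := by
    rw [asm_comap_HH, p1_mem_Gamma0_iff, h1, Nat.cast_one]
    exact one_dvd _
  exact h2

theorem asm_fibre (t : FF N) (ht : Transcendental Kbar t)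
    (hgen : Kbar⟮algebraMap (FF N) (ModL N) t⟯ = Kbar⟮jL N⟯)
    (w : Place Kbar (ModL N)) (hw : 0 < w.ord (algebraMap (FF N) (ModL N) t))
    (δ : SL(2, ℤ)) (hδ : rhoL N δ • w = w)
    (hord : N = 1 ∨ w.ord (algebraMap (FF N) (ModL N) t) ≤ (orderOf (rho N δ) : ℤ)) :
    FiniteDimensional Kbar⟮t⟯ (FF N) ∧ Module.finrank Kbar⟮t⟯ (FF N) = dedekindPsi N ∧
    Set.ncard {v : Place Kbar (FF N) | 0 < v.ord t} = orbCount N δ := by
  have htfix : ∀ g : GG N, g • algebraMap (FF N) (ModL N) t = algebraMap (FF N) (ModL N) t :=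
    fun g => asm_fixed_of_mem N _ (hgen ▸ IntermediateField.mem_adjoin_simple_self Kbar _) g
  have hfix : ∀ f : ModL N, (∀ g : GG N, g • f = f) →
      f ∈ Kbar⟮algebraMap (FF N) (ModL N) t⟯ := by
    intro f hf
    rw [hgen]
    exact modL_fixed N f (fun γ => hf (rho N γ))
  obtain ⟨hfd, hrank, hcard, hcount⟩ := galois_count (K := Kbar) (F := FF N) (L := ModL N)
    (G := GG N) t ht hfix htfix (HH N) (asm_mem_HH N) w hw (MulAction.stabilizer (GG N) w)
    (fun g => by rw [MulAction.mem_stabilizer_iff, asm_toAlgEquiv]; rfl)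
  have hindex : (HH N).index = dedekindPsi N := by
    rw [← Subgroup.index_comap_of_surjective (HH N) (rho_surjective N), asm_comap_HH,
      Subgroup.index, card_quot_Gamma0]
  refine ⟨hfd, hrank.trans hindex, ?_⟩
  rw [hcount]
  have hmap : orbCount N δ = cycOrbits (GG N ⧸ HH N) (rho N δ) := by
    unfold orbCount
    rw [cycOrbits_map (rho N) (rho_surjective N) (HH N) δ]
    exact (asm_cycOrbits_congr_subgroup (asm_comap_HH N) δ).symm
  rw [hmap]
  rcases hord with h1 | hle
  · have htop : HH N = ⊤ := asm_HH_eq_top N h1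
    rw [asm_card_orbits_of_eq_top _ _ htop, asm_cycOrbits_of_eq_top _ htop]
  · apply card_orbits_eq_cycOrbits_of_le
    · rw [MulAction.mem_stabilizer_iff]
      exact hδ
    · have h3 : (Nat.card (MulAction.stabilizer (GG N) w) : ℤ) ≤ orderOf (rho N δ) :=
        hcard ▸ hle
      exact_mod_cast h3

theorem asm_algebraMap_jF : algebraMap (FF N) (ModL N) (jF N) = jL N := embF_jF N

theorem asm_algebraMap_sub (c : Kbar) :
    algebraMap (FF N) (ModL N) (jF N - algebraMap Kbar (FF N) c)
      = jL N - algebraMap Kbar (ModL N) c := by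
  rw [map_sub, asm_algebraMap_jF, ← IsScalarTower.algebraMap_apply]

theorem asm_orbCount_one : orbCount N 1 = dedekindPsi N := by
  unfold orbCount
  rw [asm_cycOrbits_one, card_quot_Gamma0]

theorem asm_generic : FiniteDimensional Kbar⟮jF N⟯ (FF N) ∧
    Module.finrank Kbar⟮jF N⟯ (FF N) = dedekindPsi N ∧
    ∀ c : Kbar, c ≠ 0 → c ≠ 1728 →
      Set.ncard {v : Place Kbar (FF N) | 0 < v.ord (jF N - algebraMap Kbar (FF N) c)}
        = dedekindPsi N := by
  have key : ∀ c : Kbar, c ≠ 0 → c ≠ 1728 →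
      FiniteDimensional Kbar⟮jF N - algebraMap Kbar (FF N) c⟯ (FF N) ∧
      Module.finrank Kbar⟮jF N - algebraMap Kbar (FF N) c⟯ (FF N) = dedekindPsi N ∧
      Set.ncard {v : Place Kbar (FF N) | 0 < v.ord (jF N - algebraMap Kbar (FF N) c)}
        = dedekindPsi N := by
    intro c h0 h1
    obtain ⟨w, hw⟩ := exists_place_generic N c h0 h1
    have h := asm_fibre N (jF N - algebraMap Kbar (FF N) c)
      (asm_transcendental_sub_const (transcendental_jF N) c)
      (by rw [asm_algebraMap_sub]; exact asm_adjoin_sub_const _ _) w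
      (by rw [asm_algebraMap_sub, hw]; exact one_pos) 1 (by rw [map_one, one_smul])
      (Or.inr (by rw [asm_algebraMap_sub, hw, map_one, orderOf_one]; norm_num))
    rw [asm_orbCount_one] at h
    exact h
  obtain ⟨hfd, hrank, -⟩ := key 1 one_ne_zero (by norm_num)
  refine ⟨asm_fd_congr (asm_adjoin_sub_const (jF N) 1), ?_, fun c h0 h1 => (key c h0 h1).2.2⟩
  rw [← asm_finrank_congr (asm_adjoin_sub_const (jF N) (1 : Kbar))]
  exact hrank

theorem asm_fibre_S :
    Set.ncard {v : Place Kbar (FF N) | 0 < v.ord (jF N - algebraMap Kbar (FF N) 1728)}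
      = orbCount N S := by
  obtain ⟨w, hw0, hw2, hwS⟩ := exists_place_S N
  refine (asm_fibre N (jF N - algebraMap Kbar (FF N) 1728)
    (asm_transcendental_sub_const (transcendental_jF N) _)
    (by rw [asm_algebraMap_sub]; exact asm_adjoin_sub_const _ _) w
    (by rw [asm_algebraMap_sub]; exact hw0) S hwS ?_).2.2
  by_cases hN : N = 1
  · exact Or.inl hN
  · right
    rw [asm_algebraMap_sub]
    have h2 : 2 ≤ orderOf (rho N S) := asm_order_S N hN (rho N) (asm_ker N)
    have h3 : (2 : ℤ) ≤ (orderOf (rho N S) : ℤ) := by exact_mod_cast h2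
    exact hw2.trans h3

theorem asm_fibre_ST :
    Set.ncard {v : Place Kbar (FF N) | 0 < v.ord (jF N - algebraMap Kbar (FF N) 0)}
      = orbCount N (S * T) := by
  obtain ⟨w, hw0, hw3, hwST⟩ := exists_place_ST N
  have hsub : jL N - algebraMap Kbar (ModL N) 0 = jL N := by rw [map_zero, sub_zero]
  refine (asm_fibre N (jF N - algebraMap Kbar (FF N) 0)
    (asm_transcendental_sub_const (transcendental_jF N) _)
    (by rw [asm_algebraMap_sub]; exact asm_adjoin_sub_const _ _) w
    (by rw [asm_algebraMap_sub, hsub]; exact hw0) (S * T) hwST ?_).2.2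
  by_cases hN : N = 1
  · exact Or.inl hN
  · right
    rw [asm_algebraMap_sub, hsub]
    have h2 : 3 ≤ orderOf (rho N (S * T)) := asm_order_ST N hN (rho N) (asm_ker N)
    have h3 : (3 : ℤ) ≤ (orderOf (rho N (S * T)) : ℤ) := by exact_mod_cast h2
    exact hw3.trans h3

theorem asm_fibre_T :
    Set.ncard {v : Place Kbar (FF N) | v.ord (jF N) < 0} = orbCount N T := by
  obtain ⟨w, hw0, hwN, hwT⟩ := exists_place_T N
  have hinv : algebraMap (FF N) (ModL N) (jF N)⁻¹ = (jL N)⁻¹ := by
    rw [map_inv₀, asm_algebraMap_jF]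
  have hset : {v : Place Kbar (FF N) | v.ord (jF N) < 0}
      = {v : Place Kbar (FF N) | 0 < v.ord (jF N)⁻¹} := by
    ext v
    simp only [Set.mem_ofPred_eq, AlgebraicCurve.Place.ord_inv]
    omega
  rw [hset]
  refine (asm_fibre N (jF N)⁻¹ (asm_transcendental_inv (transcendental_jF N))
    (by rw [hinv]; exact asm_adjoin_inv _) w (by rw [hinv]; exact hw0) T hwT ?_).2.2
  right
  rw [hinv]
  have h2 : N ≤ orderOf (rho N T) := asm_order_T N (rho N) (asm_ker N)
  have h3 : (N : ℤ) ≤ (orderOf (rho N T) : ℤ) := by exact_mod_cast h2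
  exact hwN.trans h3

end modular

theorem result (N : ℕ) [NeZero N]
    [AlgebraicCurve.HasCanonicalDivisor (K := AlgebraicClosure ℚ) (F := ↥(ModularCurve.modularFunctionFieldBar N))] :
    (AlgebraicCurve.genus (AlgebraicClosure ℚ) ↥(ModularCurve.modularFunctionFieldBar N) : ℚ)
      = ModularCurve.genusFormula N := by
  have hx := transcendental_jF N
  obtain ⟨hfd, hrank, hgenc⟩ := asm_generic N
  have := hfd
  have hne : ∃ ω : Ω[FF N⁄Kbar], ω ≠ 0 := by
    have h1 := finrank_kaehler (K := Kbar) (jF N) hx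
    by_contra hcon
    push Not at hcon
    have hsub : Subsingleton (Ω[FF N⁄Kbar]) := ⟨fun a b => by rw [hcon a, hcon b]⟩
    rw [Module.finrank_zero_of_subsingleton] at h1
    exact zero_ne_one h1
  unfold AlgebraicCurve.genus
  rw [dif_pos hne]
  apply genus_numerics
  have hT : ∀ c ∉ ({0, 1728} : Finset Kbar),
      Set.ncard {v : Place Kbar (FF N) | 0 < v.ord (jF N - algebraMap Kbar (FF N) c)}
        = Module.finrank Kbar⟮jF N⟯ (FF N) := by
    intro c hc
    rw [Finset.mem_insert, Finset.mem_singleton, not_or] at hc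
    rw [hrank]
    exact hgenc c hc.1 hc.2
  rw [degree_canonical (jF N) hx {0, 1728} hT _ hne.choose_spec _
    (fun v => canonicalDivisorOf_apply _ v)]
  rw [Finset.sum_pair (by norm_num), hrank, asm_fibre_S, asm_fibre_ST, asm_fibre_T]
  ring

end Fermat.Agent.S24
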