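-- Statement S23: `S_2(Γ₀(N))` is spanned over `ℂ` by cusp forms with integral `q`-expansion.
import Fermat.Statements.S23
import Fermat.Agent.S23.Main

set_option autoImplicit false
open CuspForm

namespace Fermat.Agent.S23

theorem result (N : ℕ) [NeZero N] : CuspForm.HasIntegralStructure N 2 :=
  hasIntegralStructure_all N 2

end Fermat.Agent.S23
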