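import Fermat.Statements.S28
import Fermat.Agent.S28.Glue
import Fermat.Agent.S28.Tensor
import Fermat.Agent.S28.Kernel
import Fermat.Agent.S28.Core

set_option autoImplicit false
open AlgebraicGeometry CategoryTheory CategoryTheory.Limits ModularCurve ModularCurve.IgusaScheme
noncomputable section
set_option autoImplicit false
open ModularCurve ModularCurve.IgusaScheme

namespace Fermat.Agent.S28

set_option maxHeartbeats 4000000 in
set_option synthInstance.maxHeartbeats 400000 in
theorem result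
    (N : ℕ) [NeZero N] (ℓ : ℕ) [Fact ℓ.Prime] (hℓN : ¬ ℓ ∣ N)
    (K : Type) [Field K] [CharP K ℓ] [Algebra ↥(GaloisRep.ratLocalizedAt ℓ) K] :
    IsIntegral ↑(pullback (igusaTo N ℓ)
      (Spec.map (CommRingCat.ofHom (algebraMap ↥(GaloisRep.ratLocalizedAt ℓ) K)))) := by
  obtain ⟨B, hB⟩ := core N ℓ hℓN
  obtain ⟨φfin, hfin, hkfin⟩ := exists_red_fin hB
  obtain ⟨φinf, hinf, hkinf⟩ := exists_red_inf hB
  obtain ⟨φmid, hmid⟩ := exists_red_mid hB
  exact isIntegral_pullback_of_charts N ℓ K
    (isDomain_tensor_of_kernel ℓ K φfin hfin hkfin)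
    (isDomain_tensor_of_kernel ℓ K φinf hinf hkinf)
    (nontrivial_tensor_of_hom ℓ K φmid hmid)

end Fermat.Agent.S28
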