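-- Statement S31 (row 30): `CuspForm.HeckeGaloisRepDatum.isUnramifiedAt_of_notMem`.
-- The statement below is byte-identical to the frozen statement
-- CuspForm.HeckeGaloisRepDatum.FermatFrozen.S31 (Fermat/Statements/S31.lean); the grader
-- kernel-checks Fermat.Agent.S31.result against that frozen type.
import Fermat.Statements.S31
import Fermat.Agent.S31.Key
import Fermat.Agent.S31.TraceInv
import Fermat.Agent.S29.ChebAsm
import Fermat.Agent.S29.BrTowerMain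

set_option autoImplicit false
variable {p : ℕ} {N : ℕ} [NeZero N] {S : Finset ℕ}
  {𝒪 : Type} [CommRing 𝒪] [IsDomain 𝒪] [IsDiscreteValuationRing 𝒪]
  [IsAdicComplete (IsLocalRing.maximalIdeal 𝒪) 𝒪]
  {θ : CuspForm.heckeAlgebra N 2 (↑S : Set ℕ) →+* IsLocalRing.ResidueField 𝒪}
  {T : Type} [CommRing T] [IsLocalRing T] [IsNoetherianRing T]
  [IsAdicComplete (IsLocalRing.maximalIdeal T) T] [Algebra 𝒪 T] [IsLocalHom (algebraMap 𝒪 T)]
  [Module.Finite 𝒪 T] [Module.Free 𝒪 T]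
open CuspForm CuspForm.HeckeGaloisRepDatum

namespace Fermat.Agent.S31

theorem result (hp : p.Prime)
    (hp𝒪 : (p : 𝒪) ∈ IsLocalRing.maximalIdeal 𝒪) (hpS : p ∈ S)
    (hNS : ∀ q : ℕ, q.Prime → q ∣ N → q ∈ S)
    (H : CuspForm.HeckeGaloisRepDatum N (↑S : Set ℕ) 𝒪 θ T)
    (q : ℕ) (hq : q.Prime) (hqS : q ∉ S) :
    H.ρ.IsUnramifiedAt q := by
  have : Fact p.Prime := ⟨hp⟩
  have hpT : (p : T) ∈ IsLocalRing.maximalIdeal T := by
    have h1 : (algebraMap 𝒪 T) (p : 𝒪) ∈ IsLocalRing.maximalIdeal T :=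
      (IsLocalRing.mem_maximalIdeal _).mpr
        ((map_mem_nonunits_iff (algebraMap 𝒪 T) _).mpr ((IsLocalRing.mem_maximalIdeal _).mp hp𝒪))
    rwa [map_natCast] at h1
  obtain ⟨ι, h1, h2, h3, -⟩ := Fermat.Agent.S29.s29_bt_main_p N p hp.ne_zero
  exact s31_unramified_of_trace H.ρ H.residual_absIrr q
    (fun P hP τ hτ g =>
      s31_ti_main N p S hpS hNS Fermat.Agent.S29.s29_cheb_asm
        (fun n => ⟨ι n, h1 n, h2 n, fun ℓ hℓ hℓN _ ψ => h3 n ℓ hℓ hℓN ψ⟩)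
        hpT H.π H.ρ H.charpoly_frob q hq hqS P hP τ hτ g)

end Fermat.Agent.S31
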