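import Fermat.Statements.S34
import Fermat.Agent.S34.OfU
import Fermat.Agent.S34.FinalU
import Fermat.Agent.S34.Inst
import Fermat.Agent.S34.FinInst
import Fermat.Agent.S34.ContractV
import Fermat.Agent.S34.CapCt
import Fermat.Agent.S34.SmInst
import Fermat.Agent.S34.XYInst

set_option autoImplicit false
set_option autoImplicit false
open IsLocalRing
open CuspForm CuspForm.HeckeGaloisRepDatum

namespace Fermat.Agent.S34

theorem result
    {𝒪 : Type} [CommRing 𝒪] [IsDomain 𝒪] [IsDiscreteValuationRing 𝒪]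
    [IsAdicComplete (maximalIdeal 𝒪) 𝒪] [Finite (ResidueField 𝒪)] [CharZero 𝒪]
    {p : ℕ} (hp : p.Prime) (hp𝒪 : (p : 𝒪) ∈ maximalIdeal 𝒪)
    {N : ℕ} [NeZero N] {S : Finset ℕ} (hpS : p ∈ S) (hNS : ∀ q : ℕ, q.Prime → q ∣ N → q ∈ S)
    {θ : CuspForm.heckeAlgebra N 2 (↑S : Set ℕ) →+* ResidueField 𝒪}
    {T : Type} [CommRing T] [IsLocalRing T] [IsNoetherianRing T]
    [IsAdicComplete (maximalIdeal T) T] [Algebra 𝒪 T] [IsLocalHom (algebraMap 𝒪 T)]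
    [Module.Finite 𝒪 T] [Module.Free 𝒪 T]
    (H : CuspForm.HeckeGaloisRepDatum N (↑S : Set ℕ) 𝒪 θ T)
    (q : ℕ) (hq : q.Prime) (hqp : q ≠ p) (hqN : q ∣ N) (hq2 : ¬ q ^ 2 ∣ N) :
    H.ρ.IsUnipotentOnInertiaAt q :=
  s34_of_U hp hp𝒪 hpS hNS H q hq hqp
    (s34_fin_U_of_model
      (fun N₁ q M hN₁ hM hMN hq hqN =>
        s34_inst_pow s34_fi_ct_fin s34_cv_unif s34_cv_le s34_cv_tau s34_cc_cap
          (s34_smi_ct_sm s34_cc_cap) s34_xi_ct_xy N₁ q M hN₁ hM hMN hq hqN)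
      N p q hp hq hqp hqN hq2)

end Fermat.Agent.S34
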