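import Fermat.Statements.S42
import Fermat.Agent.S29
import Fermat.Agent.S42.Wire

set_option autoImplicit false
open FreyPackage

namespace Fermat.Agent.S42

theorem result (P : FreyPackage) :
    ∀ M : ℕ, 0 < M → P.EigenformResidualAttachmentAt M :=
  s42_of_attach P (fun _ _ hg _ hp _ _ _ φ => Fermat.Agent.S29.result hg hp φ)

end Fermat.Agent.S42
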