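import Fermat.Statements.S49
import Fermat.Agent.S49.Eigen
import Fermat.Agent.S49.LinAlg

set_option autoImplicit false
open CuspForm EisensteinWeightOne CongruenceSubgroup ModularFormClass
open FLT FLT.AbstractIntegralStructure

namespace Fermat.Agent.S49

theorem result
    {N : ℕ} [NeZero N] (h : CuspForm.HasIntegralBasis N) {a : ℕ → ℤ}
    (heig : FormalHecke.IsEigensystem
      (fun ℓ => if ℓ ∣ N then 0 else ((chiNegThree ℓ : ℤ) : ℤ)) a)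
    (hreal : CuspForm.IsLatticeRealized N a) :
    ∃ (f : CuspForm (Gamma0 N) 2) (_ : f.IsNormalizedEigenform)
      (𝔪' : Ideal (integralClosure ℤ ℂ)), 𝔪'.IsMaximal ∧
      ((3 : ℕ) : integralClosure ℤ ℂ) ∈ 𝔪' ∧
      ∀ (ℓ : ℕ) (_ : ℓ.Prime) (_ : ¬ ℓ ∣ N),
        ∃ c : integralClosure ℤ ℂ, (c : ℂ) = ModularFormClass.qCoeff f ℓ ∧
          c - (a ℓ : integralClosure ℤ ℂ) ∈ 𝔪' := by
  obtain ⟨f₀, -, af, hf₀, hbr⟩ := hreal
  have haf : ∀ n, (3 : ℤ) ∣ af n - a n := fun n => by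
    have := dvd_add (hbr n) (three_dvd_bridge_sub a n)
    simpa using this
  have : Module.Finite ℂ (CuspForm (Gamma0 N) 2) := finiteDimensional_of_hasIntegralBasis h
  have : Module.Finite ℤ (heckeAlgebra N 2 (∅ : Set ℕ)) := heckeAlgebra_finite h
  obtain ⟨𝔪, h𝔪max, hle⟩ :=
    Ideal.exists_le_maximal (congrIdeal f₀) (congrIdeal_ne_top heig.1 haf hf₀)
  have := h𝔪max.isPrime
  obtain ⟨v, χ, hv0, hχ, hker⟩ := exists_eigenvector_ker_le
    (heckeAlgebra N 2 (∅ : Set ℕ)).val.toRingHom Subtype.val_injective 𝔪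
  obtain ⟨f, hf, hfℓ⟩ := exists_normalized_eigenform v hv0 χ hχ
  have hint : ∀ T, χ T ∈ integralClosure ℤ ℂ := fun T =>
    map_isIntegral_int χ (IsIntegral.of_finite ℤ T)
  let χ' : heckeAlgebra N 2 (∅ : Set ℕ) →+* integralClosure ℤ ℂ :=
    χ.codRestrict (integralClosure ℤ ℂ) hint
  let : Algebra (heckeAlgebra N 2 (∅ : Set ℕ)) (integralClosure ℤ ℂ) := χ'.toAlgebra
  have : Algebra.IsIntegral (heckeAlgebra N 2 (∅ : Set ℕ)) (integralClosure ℤ ℂ) :=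
    ⟨fun c => (Algebra.IsIntegral.isIntegral (R := ℤ) c).tower_top⟩
  have hker' : RingHom.ker (algebraMap (heckeAlgebra N 2 (∅ : Set ℕ)) (integralClosure ℤ ℂ))
      ≤ 𝔪 := by
    intro T hT
    apply hker
    have h0 : χ' T = 0 := hT
    have h1 : ((χ' T : integralClosure ℤ ℂ) : ℂ) = χ T := rfl
    rw [RingHom.mem_ker, ← h1, h0]
    rfl
  obtain ⟨𝔪', h𝔪', hcomap⟩ := Ideal.exists_ideal_over_maximal_of_isIntegral 𝔪 hker'
  refine ⟨f, hf, 𝔪', h𝔪', ?_, ?_⟩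
  · have h3 : ((3 : ℕ) : heckeAlgebra N 2 (∅ : Set ℕ)) ∈ 𝔪 := hle (three_mem_congrIdeal hf₀)
    rw [← hcomap, Ideal.mem_comap, map_natCast] at h3
    exact h3
  · intro ℓ hℓ hℓN
    refine ⟨χ' (heckeAlgebra.T hℓ hℓN (Set.notMem_empty ℓ)), (hfℓ ℓ hℓ hℓN).symm, ?_⟩
    have hT : heckeAlgebra.T hℓ hℓN (Set.notMem_empty ℓ) -
        ((a ℓ : ℤ) : heckeAlgebra N 2 (∅ : Set ℕ)) ∈ 𝔪 :=
      hle (T_sub_mem_congrIdeal heig haf hf₀ hℓ hℓN)
    rw [← hcomap, Ideal.mem_comap, map_sub, map_intCast] at hT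
    exact hT

end Fermat.Agent.S49
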