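-- Statement S51 (row 45): a semistable integral Weierstrass curve has irreducible mod-3 or mod-5
-- representation.  Proof: if both are reducible, the curve gives a rational point (s, t) of
-- X_0(15) (fibre product of X_0(3) and X_0(5) over the j-line); X_0(15) is an elliptic curve of
-- rank 0 whose four non-cuspidal rational points have j-invariants that are not semistable at 5.
import Fermat.Statements.S51
import Fermat.Agent.S51.Rank0
import Fermat.Agent.S51.X015
import Fermat.Agent.S51.Semistable
import Fermat.Agent.S51.Three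
import Fermat.Agent.S51.Five

set_option autoImplicit false
open WeierstrassCurve WeierstrassCurve.Affine WeierstrassCurve.Affine.Point
open CuspForm ModularFormClass UpperHalfPlane
open WeierstrassCurve

namespace Fermat.Agent.S51

theorem result (W : WeierstrassCurve ℤ) (hΔ : W.Δ ≠ 0) (hW : W.IsSemistableModel) : W.ModRepIsIrreducible 3 ∨ W.ModRepIsIrreducible 5 := by
  by_contra hcon
  rw [not_or] at hcon
  obtain ⟨s, -, hs'⟩ := exists_s_of_not_irred3 W hΔ hcon.1
  obtain ⟨t, ht, ht'⟩ := exists_t_of_not_irred5 W hΔ hcon.2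
  have hΔ' : (W.Δ : ℚ) ≠ 0 := by exact_mod_cast hΔ
  have key : (s + 27) * (s + 3) ^ 3 * t = (t ^ 2 + 10 * t + 5) ^ 3 * s := by
    have h1 : (W.Δ : ℚ) * ((s + 27) * (s + 3) ^ 3 * t) =
        (W.Δ : ℚ) * ((t ^ 2 + 10 * t + 5) ^ 3 * s) := by
      linear_combination t * (-hs') + s * ht'
    exact mul_left_cancel₀ hΔ' h1
  exact no_t_of_semistable W hW t (x0_15_of_rank0 rank0 s t ht key) ht'

end Fermat.Agent.S51
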