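-- Statement S53 (row 47): existence of the universal deformation ring (Mazur, Ramakrishna).
-- Proof: Fermat/Agent/S53/*.lean (slice-normalized matrix deformations, good ideals of the
-- coordinate ring, limit ring as a quotient of a power series ring).
import Fermat.Statements.S53
import Fermat.Agent.S53.Ring
import Fermat.Agent.S53.SliceExists
import Fermat.Agent.S53.TangentFin

set_option autoImplicit false
set_option autoImplicit false
open GaloisRep

namespace Fermat.Agent.S53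

theorem result
    (𝒪 : Type) [CommRing 𝒪] [IsDomain 𝒪] [IsDiscreteValuationRing 𝒪]
    [IsAdicComplete (IsLocalRing.maximalIdeal 𝒪) 𝒪] [Finite (IsLocalRing.ResidueField 𝒪)]
    (ρbar : ResidualGaloisRep (IsLocalRing.ResidueField 𝒪))
    (𝒟 : ∀ ⦃A : Type⦄ [CommRing A] [IsLocalRing A] [Algebra 𝒪 A], GaloisRepAdic A → Prop)
    (habs : ρbar.IsAbsolutelyIrreducible)
    (h𝒟 : GaloisRep.IsDeformationCondition 𝒪 𝒟)
    (hbar : 𝒟 (GaloisRepAdic.ofResidualGaloisRep ρbar))
    (hfin : GaloisRep.TangentFinite 𝒪 ρbar 𝒟) :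
    Nonempty (GaloisRep.DeformationRingData 𝒪 ρbar 𝒟) := by
  obtain ⟨s, hs⟩ := exists_slice 𝒪 ρbar habs
  have hfinF := finite_points_dual s 𝒟 ρbar hs hfin
  have hgood : Good s 𝒟 (augIdeal 𝒪) := good_augIdeal h𝒟 ρbar hs hbar
  obtain ⟨R, i1, i2, i3, i4, i5, hR₁, hR₂, rR, hpt, huniv⟩ :=
    exists_universal_ring s 𝒟 h𝒟 hfinF hgood
  refine ⟨{ R := R
            instIsLocalHom := hR₁
            residue_surjective := hR₂
            absIrr := habs
            ρ := ofMat rR hpt.cont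
            isOfType := hpt.isD
            residual_isEquiv := ?_
            universal := ?_ }⟩
  · haveI := hR₁
    exact residual_isEquiv_of_isLiftMat s (IsLocalRing.ResidueField.map (algebraMap 𝒪 R))
      (fun c => rfl) ρbar hs rR hpt.cont hpt.lift
  · intro A _ _ _ _ _ hA₁ hA₂ ρA hD hres
    obtain ⟨r, hr, hc, he⟩ := exists_point_of_residual h𝒟 hA₂ ρbar hs ρA hD hres
    obtain ⟨φ, hφ, hφuniq⟩ := huniv A hA₁ hA₂ r hr
    have hloc : ∀ ψ : R →ₐ[𝒪] A, IsLocalHom (ψ : R →+* A) := fun ψ =>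
      isLocalHom_of_algHom hA₁ hA₂ ψ
    refine ⟨φ, ⟨hloc φ, ?_⟩, ?_⟩
    · have e1 := ofMat_baseChangeAlong (φ : R →+* A) (hloc φ) rR hpt.cont
      have e2 : (ofMat (mapMat (φ : R →+* A) rR) (hpt.cont.mapMat _ (hloc φ))).IsEquiv
          (ofMat r hc) := by
        subst hφ
        exact ⟨GaloisRepAdic.Equiv.refl _⟩
      exact ⟨(e1.some.trans e2.some).trans he.some.symm⟩
    · rintro φ' ⟨hφ', he'⟩
      apply hφuniq
      have e1 := ofMat_baseChangeAlong (φ' : R →+* A) hφ' rR hpt.cont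
      have e3 : (ofMat (mapMat (φ' : R →+* A) rR) (hpt.cont.mapMat _ hφ')).IsEquiv
          (ofMat r hc) :=
        ⟨(e1.some.symm.trans he'.some).trans he.some⟩
      exact eq_of_isEquiv_of_isNormalized (s := s) (hpt.cont.mapMat _ hφ') hc
        (hpt.lift.map φ' hφ') hr.lift (hpt.norm.map φ') hr.norm e3

end Fermat.Agent.S53
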