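-- S55 (row 49): the Poitou–Tate pairing `Ш¹(S, M^∨(1)) × Ш²(S, M) → 𝔽_p` is nondegenerate
-- (p odd).  The statement below is byte-identical to the frozen statement
-- groupCohomology.FermatFrozen.S55 (Fermat/Statements/S55.lean).
import Fermat.Statements.S55
import Fermat.Agent.S55.Final
import Fermat.Agent.S55.RecArith
import Fermat.Agent.S55.LcgRecip

set_option autoImplicit false
set_option autoImplicit false
open CategoryTheory Module groupCohomology ExtCitation
open groupCohomology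

namespace Fermat.Agent.S55

/-- **The arithmetic package of S55**: local invariants on `μ_p`-valued local 2-cochains at all
primes, with the reciprocity law over `ℚ` (block REC) and the injectivity `[LC3]` of
`inv ∘ cor` for open subgroups of the local Galois groups (blocks LOC, LC-GLUE). -/
theorem s55_arith (p : ℕ) [Fact p.Prime] (hp2 : p ≠ 2) : ∃ A : tri_Arith p, tri_LC3 A := by
  obtain ⟨ζ, hζ⟩ := lcg_exists_zeta p
  exact ⟨lcg_arith p ζ hζ (rec_hrecip p hp2 ζ hζ), lcg_lc3 p ζ hζ (rec_hrecip p hp2 ζ hζ)⟩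

theorem result
    {p : ℕ} [Fact p.Prime] (hp2 : p ≠ 2) (S : Finset Nat.Primes) (hpS : pPrime p ∈ S)
    (M : Rep (ZMod p) (AlgebraicClosure ℚ ≃ₐ[ℚ] AlgebraicClosure ℚ))
    [FiniteDimensional (ZMod p) M]
    (hsm : ∀ m : M, ∃ F : IntermediateField ℚ (AlgebraicClosure ℚ), FiniteDimensional ℚ F ∧
      ∀ s ∈ F.fixingSubgroup, M.ρ s m = m)
    (hMur : ∀ q : Nat.Primes, q ∉ S → ∀ A : ValuationSubring (AlgebraicClosure ℚ),
      A.LiesOverPrime (q : ℕ) → ∀ g ∈ A.inertiaSubgroupIn ℚ, M.ρ g = 1) :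
    ∃ B : sha₁ S (M.dualTwist (cycloChar p)) →ₗ[ZMod p] sha₂ S M →ₗ[ZMod p] ZMod p,
      (∀ y, (∀ x, B y x = 0) → y = 0) ∧ (∀ x, (∀ y, B y x = 0) → x = 0) :=
  fin_S55 hp2 S hpS M hsm hMur (s55_arith p hp2)

end Fermat.Agent.S55
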