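import Fermat.Statements.S57
import Fermat.Agent.S57.Core

set_option autoImplicit false
open Algebra Algebra.PatchingLevel
open Fermat.Agent.S57.Descent

namespace Fermat.Agent.S57

theorem result
    {𝒪 : Type} [CommRing 𝒪] [IsDomain 𝒪] [IsDiscreteValuationRing 𝒪]
    {r : ℕ} {R : Type} [CommRing R] [Algebra 𝒪 R]
    {M : Type} [AddCommGroup M] [Module R M] [Nontrivial M]
    (L : Algebra.PatchingLevel 𝒪 r R M ⊥) :
    Module.Free R M ∧ Module.annihilator R M = ⊥ ∧
      RingHom.ker L.ψ = Ideal.span (Set.range fun i : Fin r => L.φ (MvPowerSeries.X i)) := by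
  classical
  -- `N` is nontrivial
  have hNnt : Nontrivial L.N := by
    obtain ⟨m, hm⟩ := exists_ne (0 : M)
    obtain ⟨x, rfl⟩ := L.π_surjective m
    exact ⟨⟨x, 0, fun h => hm (by rw [h, map_zero])⟩⟩
  obtain ⟨hfree, hfin⟩ := free_of_free_via_algHom L.N L.φ L.d L.b L.b_span
    (fun c hc i => by simpa using (L.b_rel c).mp hc i)
  set S := MvPowerSeries (Fin r) 𝒪 with hS
  set I : Ideal S := Ideal.span (Set.range fun i : Fin r => L.φ (MvPowerSeries.X i)) with hI
  let B := Module.finBasis S L.N
  have hne : Nonempty (Fin (Module.finrank S L.N)) := B.index_nonempty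
  obtain ⟨i₀⟩ := hne
  -- coordinates of elements of `I • ⊤` lie in `I`
  have hrepr : ∀ x ∈ I • (⊤ : Submodule S L.N), ∀ i, B.repr x i ∈ I := by
    intro x hx
    refine Submodule.smul_induction_on hx ?_ ?_
    · intro a ha n _ i
      rw [map_smul, Finsupp.smul_apply, smul_eq_mul]
      exact I.mul_mem_right _ ha
    · intro x y hx hy i
      rw [map_add, Finsupp.add_apply]
      exact I.add_mem (hx i) (hy i)
  have hIker : I ≤ RingHom.ker L.ψ := by
    rw [hI, Ideal.span_le]
    rintro _ ⟨i, rfl⟩
    exact L.ψ_φ_X i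
  have hπsum : ∀ c : Fin (Module.finrank S L.N) → S,
      L.π (∑ i, c i • B i) = ∑ i, L.ψ (c i) • L.π (B i) := by
    intro c
    rw [map_sum]
    exact Finset.sum_congr rfl fun i _ => L.π_smul _ _
  have hcoord : ∀ c : Fin (Module.finrank S L.N) → S,
      L.π (∑ i, c i • B i) = 0 → ∀ i, c i ∈ I := by
    intro c hc i
    have h1 := hrepr _ ((L.ker_π _).mp hc) i
    have h2 : B.repr (∑ j, c j • B j) i = c i := by
      rw [map_sum, Finset.sum_apply']
      simp [Finsupp.single_apply]
    rwa [h2] at h1
  have hkerI : RingHom.ker L.ψ ≤ I := by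
    intro f hf
    have h1 : L.π (∑ i, (Pi.single i₀ f : Fin (Module.finrank S L.N) → S) i • B i) = 0 := by
      rw [hπsum]
      refine Finset.sum_eq_zero fun i _ => ?_
      by_cases h : i = i₀
      · subst h
        rw [Pi.single_eq_same, (RingHom.mem_ker).mp hf, zero_smul]
      · rw [Pi.single_eq_of_ne h, map_zero, zero_smul]
    simpa using hcoord _ h1 i₀
  refine ⟨?_, ?_, le_antisymm hkerI hIker⟩
  · -- freeness
    have hli : LinearIndependent R (fun i => L.π (B i)) := by
      rw [Fintype.linearIndependent_iff]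
      intro g hg i
      choose c hc using fun i => L.ψ_surjective (g i)
      have h1 : L.π (∑ i, c i • B i) = 0 := by
        rw [hπsum, ← hg]
        exact Finset.sum_congr rfl fun i _ => by rw [hc]
      have h2 := hIker (hcoord c h1 i)
      rw [← hc i]
      exact h2
    have hsp : ⊤ ≤ Submodule.span R (Set.range fun i => L.π (B i)) := by
      intro m _
      obtain ⟨x, rfl⟩ := L.π_surjective m
      have hx : x = ∑ i, B.repr x i • B i := (B.sum_repr x).symm
      rw [hx, hπsum]
      exact Submodule.sum_mem _ fun i _ =>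
        Submodule.smul_mem _ _ (Submodule.subset_span ⟨i, rfl⟩)
    exact Module.Free.of_basis (Module.Basis.mk hli hsp)
  · -- faithfulness
    rw [eq_bot_iff]
    intro a ha
    rw [Module.mem_annihilator] at ha
    obtain ⟨f, rfl⟩ := L.ψ_surjective a
    have h1 : L.π (∑ i, (Pi.single i₀ f : Fin (Module.finrank S L.N) → S) i • B i) = 0 := by
      rw [hπsum]
      refine Finset.sum_eq_zero fun i _ => ?_
      by_cases h : i = i₀
      · subst h
        rw [Pi.single_eq_same, ha]
      · rw [Pi.single_eq_of_ne h, map_zero, zero_smul]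
    have h2 : f ∈ I := by simpa using hcoord _ h1 i₀
    exact hIker h2

end Fermat.Agent.S57
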